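import Fermat.Statements.S49
import Fermat.Prelude.Thm_CongruenceSubgroup_one_mem_strictPeriods_Gamma0
import Fermat.Prelude.Thm_ModularFormClass_qCoeff_heckeT
import Fermat.Prelude.Thm_ModularFormClass_qCoeff_heckeU
import Fermat.Prelude.Thm_CuspForm_intLattice_fg
import Fermat.Prelude.Thm_CuspForm_mem_intLattice_of_mem_heckeAlgebra
import Fermat.Prelude.Thm_UpperHalfPlane_eq_of_forall_qCoeff_eq

/-!
# Modular-form side of the Deligne-Serre lifting lemma (S49)

`q`-coefficient bookkeeping for cusp forms on `Γ₀(N)`: linearity, Hecke action, the integral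
lattice, and the passage from a common Hecke eigenvector to a normalized eigenform.
-/

set_option autoImplicit false

namespace Fermat.Agent.LibS49

open CuspForm EisensteinWeightOne CongruenceSubgroup ModularFormClass UpperHalfPlane

variable {N : ℕ} {k : ℤ}

section qCoeff

theorem qCoeff_add' (f g : CuspForm (Gamma0 N) k) (n : ℕ) :
    qCoeff (⇑(f + g)) n = qCoeff f n + qCoeff g n := by
  rw [FunLike.coe_add]
  unfold qCoeff
  rw [ModularForm.qExpansion_add one_pos (CongruenceSubgroup.one_mem_strictPeriods_Gamma0 N) f g]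
  simp

theorem qCoeff_smul' (c : ℂ) (f : CuspForm (Gamma0 N) k) (n : ℕ) :
    qCoeff (⇑(c • f)) n = c * qCoeff f n := by
  rw [FunLike.coe_smul]
  unfold qCoeff
  rw [ModularForm.qExpansion_smul one_pos (CongruenceSubgroup.one_mem_strictPeriods_Gamma0 N) c f]
  simp

theorem qCoeff_zero' (n : ℕ) : qCoeff (⇑(0 : CuspForm (Gamma0 N) k)) n = 0 := by
  have h0 : (⇑(0 : CuspForm (Gamma0 N) k) : ℍ → ℂ) = 0 := rfl
  rw [h0]
  unfold qCoeff
  rw [qExpansion_zero]
  simp

theorem qCoeff_zsmul' (m : ℤ) (f : CuspForm (Gamma0 N) k) (n : ℕ) :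
    qCoeff (⇑(m • f)) n = (m : ℂ) * qCoeff f n := by
  rw [← Int.cast_smul_eq_zsmul ℂ m f, qCoeff_smul']

theorem qCoeff_sub' (f g : CuspForm (Gamma0 N) k) (n : ℕ) :
    qCoeff (⇑(f - g)) n = qCoeff f n - qCoeff g n := by
  have h : f - g = f + (-1 : ℂ) • g := by
    rw [neg_one_smul, sub_eq_add_neg]
  rw [h, qCoeff_add', qCoeff_smul']
  ring

theorem qCoeff_zero_index (f : CuspForm (Gamma0 N) k) : qCoeff f 0 = 0 :=
  CuspFormClass.qExpansion_coeff_zero f one_pos
    (CongruenceSubgroup.one_mem_strictPeriods_Gamma0 N)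

theorem eq_zero_of_forall_qCoeff_eq_zero (f : CuspForm (Gamma0 N) k)
    (h : ∀ n : ℕ, qCoeff f n = 0) : f = 0 := by
  apply DFunLike.coe_injective
  have hΓ := CongruenceSubgroup.one_mem_strictPeriods_Gamma0 N
  have : Fact (IsCusp OnePoint.infty
      (Subgroup.map (Matrix.SpecialLinearGroup.mapGL ℝ) (Gamma0 N))) :=
    ⟨Subgroup.isCusp_of_mem_strictPeriods one_pos hΓ⟩
  have hper : ∀ g : CuspForm (Gamma0 N) k,
      Function.Periodic ((⇑g : ℍ → ℂ) ∘ UpperHalfPlane.ofComplex) 1 := by
    intro g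
    simpa using SlashInvariantFormClass.periodic_comp_ofComplex g hΓ
  refine UpperHalfPlane.eq_of_forall_qCoeff_eq (hper f) (CuspFormClass.holo f)
    (ModularFormClass.bdd_at_infty f) (hper 0) (CuspFormClass.holo (0 : CuspForm (Gamma0 N) k))
    (ModularFormClass.bdd_at_infty (0 : CuspForm (Gamma0 N) k)) ?_
  intro n
  rw [h n, qCoeff_zero']

theorem qCoeff_heckeTLin {p : ℕ} (hp : p.Prime) (hpN : ¬ p ∣ N) (f : CuspForm (Gamma0 N) k)
    (n : ℕ) :
    qCoeff (⇑(CuspForm.heckeTLin k hp hpN f)) n =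
      qCoeff f (n * p) + if p ∣ n then (p : ℂ) ^ (k - 1) * qCoeff f (n / p) else 0 := by
  rw [CuspForm.coe_heckeTLin_apply, ModularFormClass.qCoeff_heckeT f
    (CongruenceSubgroup.one_mem_strictPeriods_Gamma0 N) hp.ne_zero n]
  rfl

theorem qCoeff_heckeULin [NeZero N] {p : ℕ} (hp : p.Prime) (hpN : p ∣ N)
    (f : CuspForm (Gamma0 N) k) (n : ℕ) :
    qCoeff (⇑(CuspForm.heckeULin k hpN f)) n = qCoeff f (n * p) := by
  rw [CuspForm.coe_heckeULin_apply, ModularFormClass.qCoeff_heckeU f
    (CongruenceSubgroup.one_mem_strictPeriods_Gamma0 N) hp.ne_zero n]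
  rfl

end qCoeff

section lattice

theorem mem_intLattice_iff (f : CuspForm (Gamma0 N) k) :
    f ∈ CuspForm.intLattice N k ↔ ∀ n : ℕ, ∃ m : ℤ, qCoeff f n = (m : ℂ) := by
  constructor
  · intro hf
    induction hf using Submodule.span_induction with
    | mem x hx => exact hx
    | zero => intro n; exact ⟨0, by rw [qCoeff_zero']; simp⟩
    | add x y _ _ hx hy =>
      intro n
      obtain ⟨a, ha⟩ := hx n
      obtain ⟨b, hb⟩ := hy n
      exact ⟨a + b, by rw [qCoeff_add', ha, hb]; push_cast; rfl⟩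
    | smul c x _ hx =>
      intro n
      obtain ⟨a, ha⟩ := hx n
      exact ⟨c * a, by rw [qCoeff_zsmul', ha]; push_cast; rfl⟩
  · intro h
    exact Submodule.subset_span h

theorem exists_mem_intLattice_eq_three_smul (f : CuspForm (Gamma0 N) k)
    (h : ∀ n : ℕ, ∃ m : ℤ, qCoeff f n = ((3 * m : ℤ) : ℂ)) :
    ∃ g ∈ CuspForm.intLattice N k, f = (3 : ℤ) • g := by
  refine ⟨(3⁻¹ : ℂ) • f, ?_, ?_⟩
  · rw [mem_intLattice_iff]
    intro n
    obtain ⟨m, hm⟩ := h n
    refine ⟨m, ?_⟩
    rw [qCoeff_smul', hm]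
    push_cast
    field_simp
  · rw [← Int.cast_smul_eq_zsmul ℂ, smul_smul]
    norm_num

theorem three_dvd_chiNegThree_sub (n : ℕ) : (3 : ℤ) ∣ chiNegThree n - (n : ℤ) := by
  unfold chiNegThree
  split_ifs <;> omega

theorem three_dvd_coeff_bridgeProduct_sub (a : ℕ → ℤ) (n : ℕ) :
    (3 : ℤ) ∣ (bridgeProduct a).coeff n - a n := by
  have h1 : e1Chi3In ℤ = 1 + PowerSeries.C (3 : ℤ) *
      PowerSeries.mk (fun n => if n = 0 then 0 else 2 * sigmaChi n) := by
    ext m
    simp only [e1Chi3In, e1Chi3, PowerSeries.coeff_map, PowerSeries.coeff_mk, map_add,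
      PowerSeries.coeff_one, PowerSeries.coeff_C_mul, Int.coe_castRingHom, Int.cast_id]
    split_ifs <;> ring
  unfold bridgeProduct
  rw [h1, mul_add, mul_one, map_add, PowerSeries.coeff_mk, add_sub_cancel_left, ← mul_assoc,
    mul_comm _ (PowerSeries.C (3 : ℤ)), mul_assoc, PowerSeries.coeff_C_mul]
  exact dvd_mul_right _ _

end lattice

section arithmetic

/-- Hecke relations on an arithmetic function force the "normalized eigenform" identities. -/
theorem normalized_of_hecke_relations (c : ℕ → ℂ) (ε : ℕ → ℂ) (hc1 : c 1 = 1)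
    (hrel : ∀ p : ℕ, p.Prime → ∀ n : ℕ,
      c (n * p) + (if p ∣ n then ε p * c (n / p) else 0) = c p * c n) :
    (∀ m n : ℕ, m.Coprime n → c (m * n) = c m * c n) ∧
    (∀ p r : ℕ, p.Prime → c (p ^ (r + 2)) = c p * c (p ^ (r + 1)) - ε p * c (p ^ r)) := by
  have hpow : ∀ p r : ℕ, p.Prime →
      c (p ^ (r + 2)) = c p * c (p ^ (r + 1)) - ε p * c (p ^ r) := by
    intro p r hp
    have hdiv : p ^ (r + 1) / p = p ^ r := by
      rw [pow_succ, Nat.mul_div_cancel _ hp.pos]
    have h : c (p ^ (r + 2)) + ε p * c (p ^ r) = c p * c (p ^ (r + 1)) := by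
      have h := hrel p hp (p ^ (r + 1))
      rw [if_pos (dvd_pow_self p (Nat.succ_ne_zero r)), hdiv, ← pow_succ] at h
      exact h
    rw [← h]; ring
  have hprime : ∀ p : ℕ, p.Prime → ∀ n : ℕ, ¬ p ∣ n → ∀ r : ℕ,
      c (p ^ r * n) = c (p ^ r) * c n := by
    intro p hp n hpn r
    induction r using Nat.twoStepInduction with
    | zero => simp [hc1]
    | one =>
      have h := hrel p hp n
      rw [if_neg hpn, add_zero] at h
      rw [pow_one, mul_comm p n, h]
    | more r ih0 ih1 =>
      have h := hrel p hp (p ^ (r + 1) * n)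
      have hdvd : p ∣ p ^ (r + 1) * n := Dvd.dvd.mul_right (dvd_pow_self p (Nat.succ_ne_zero r)) n
      have hdiv : p ^ (r + 1) * n / p = p ^ r * n := by
        rw [pow_succ, mul_assoc, mul_comm p n, ← mul_assoc, Nat.mul_div_cancel _ hp.pos]
      have hmul : p ^ (r + 1) * n * p = p ^ (r + 2) * n := by ring
      rw [if_pos hdvd, hdiv, hmul, ih0, ih1] at h
      rw [hpow p r hp]
      linear_combination h
  refine ⟨?_, hpow⟩
  intro m
  induction m using Nat.strong_induction_on with
  | _ m ih =>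
  intro n hmn
  rcases Nat.lt_or_ge m 2 with hm | hm
  · interval_cases m
    · rw [Nat.coprime_zero_left] at hmn
      subst hmn
      simp [hc1]
    · simp [hc1]
  · have hm0 : m ≠ 0 := by omega
    have hp : (m.minFac).Prime := Nat.minFac_prime (by omega)
    obtain ⟨r, m', hm', hmeq⟩ := Nat.exists_eq_pow_mul_and_not_dvd hm0 m.minFac hp.ne_one
    set p := m.minFac with hpdef
    have hpm : p ∣ m := Nat.minFac_dvd m
    have hr : r ≠ 0 := by
      rintro rfl
      rw [pow_zero, one_mul] at hmeq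
      exact hm' (hmeq ▸ hpm)
    have hm'pos : 0 < m' := by
      rcases Nat.eq_zero_or_pos m' with h | h
      · exact absurd (h ▸ dvd_zero p) hm'
      · exact h
    have hm'lt : m' < m := by
      rw [hmeq]
      have : 2 ≤ p ^ r := by
        calc 2 ≤ p := hp.two_le
          _ = p ^ 1 := (pow_one p).symm
          _ ≤ p ^ r := Nat.pow_le_pow_right hp.pos (by omega)
      nlinarith
    have hpn : ¬ p ∣ n := by
      intro hpn
      have := Nat.dvd_gcd hpm hpn
      rw [Nat.Coprime] at hmn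
      rw [hmn] at this
      exact hp.one_lt.ne' (Nat.dvd_one.mp this)
    have hm'n : m'.Coprime n := by
      apply Nat.Coprime.coprime_dvd_left _ hmn
      rw [hmeq]; exact Dvd.intro_left _ rfl
    have hpm'n : ¬ p ∣ m' * n := by
      intro h
      rcases (Nat.Prime.dvd_mul hp).mp h with h | h
      · exact hm' h
      · exact hpn h
    rw [hmeq, mul_assoc, hprime p hp (m' * n) hpm'n r, ih m' hm'lt n hm'n,
      hprime p hp m' hm' r]
    ring

end arithmetic

section eigenform

variable [NeZero N]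

/-- A common eigenvector of all `T_p` (`p ∤ N`) and `U_p` (`p ∣ N`) in weight 2 can be scaled to
a normalized eigenform whose `p`-th coefficients are the eigenvalues. -/
theorem exists_normalized_eigenform (v : CuspForm (Gamma0 N) 2) (hv : v ≠ 0)
    (χ : {p : ℕ // p.Prime} → ℂ)
    (hgood : ∀ (p : ℕ) (hp : p.Prime) (hpN : ¬ p ∣ N),
      CuspForm.heckeTLin 2 hp hpN v = χ ⟨p, hp⟩ • v)
    (hbad : ∀ (p : ℕ) (hp : p.Prime) (hpN : p ∣ N),
      CuspForm.heckeULin 2 hpN v = χ ⟨p, hp⟩ • v) :
    ∃ f : CuspForm (Gamma0 N) 2, f.IsNormalizedEigenform ∧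
      ∀ (p : ℕ) (hp : p.Prime), qCoeff f p = χ ⟨p, hp⟩ := by
  classical
  set b : ℕ → ℂ := fun n => qCoeff v n with hb
  let ε : ℕ → ℂ := fun p => if p ∣ N then 0 else (p : ℂ)
  -- the Hecke relations for the coefficients of `v`
  have hrelb : ∀ (p : ℕ) (hp : p.Prime) (n : ℕ),
      b (n * p) + (if p ∣ n then ε p * b (n / p) else 0) = χ ⟨p, hp⟩ * b n := by
    intro p hp n
    by_cases hpN : p ∣ N
    · have h := congrArg (fun g : CuspForm (Gamma0 N) 2 => qCoeff g n) (hbad p hp hpN)
      simp only [qCoeff_heckeULin hp hpN, qCoeff_smul'] at h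
      simp only [ε, if_pos hpN, zero_mul, ite_self, add_zero]
      exact h
    · have h := congrArg (fun g : CuspForm (Gamma0 N) 2 => qCoeff g n) (hgood p hp hpN)
      simp only [qCoeff_heckeTLin hp hpN, qCoeff_smul'] at h
      simp only [ε, if_neg hpN]
      have h21 : ((p : ℂ)) ^ ((2 : ℤ) - 1) = (p : ℂ) := by norm_num
      rw [h21] at h
      exact h
  have hb0 : b 0 = 0 := qCoeff_zero_index v
  -- the first coefficient is nonzero
  have hb1 : b 1 ≠ 0 := by
    intro hb1
    apply hv
    apply eq_zero_of_forall_qCoeff_eq_zero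
    intro n
    show b n = 0
    induction n using Nat.strong_induction_on with
    | _ n ih =>
    rcases Nat.lt_or_ge n 2 with hn | hn
    · interval_cases n
      · exact hb0
      · exact hb1
    · have hp : (n.minFac).Prime := Nat.minFac_prime (by omega)
      obtain ⟨m, hm⟩ := Nat.minFac_dvd n
      have hmpos : 0 < m := by
        rcases Nat.eq_zero_or_pos m with h | h
        · rw [h, mul_zero] at hm; omega
        · exact h
      have hmlt : m < n := by
        rw [hm]
        have := hp.two_le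
        nlinarith
      have h := hrelb _ hp m
      rw [mul_comm m, ← hm, ih m hmlt, mul_zero] at h
      by_cases hpm : n.minFac ∣ m
      · rw [if_pos hpm, ih (m / n.minFac)
          (lt_of_le_of_lt (Nat.div_le_self _ _) hmlt), mul_zero, add_zero] at h
        exact h
      · rw [if_neg hpm, add_zero] at h
        exact h
  -- normalize
  refine ⟨(b 1)⁻¹ • v, ?_, ?_⟩
  · set c : ℕ → ℂ := fun n => qCoeff (⇑((b 1)⁻¹ • v)) n with hc
    have hcb : ∀ n, c n = (b 1)⁻¹ * b n := fun n => qCoeff_smul' _ _ _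
    have hc1 : c 1 = 1 := by rw [hcb]; exact inv_mul_cancel₀ hb1
    have hrelc' : ∀ (p : ℕ) (hp : p.Prime) (n : ℕ),
        c (n * p) + (if p ∣ n then ε p * c (n / p) else 0) = χ ⟨p, hp⟩ * c n := by
      intro p hp n
      have h := hrelb p hp n
      rw [hcb, hcb, hcb]
      split_ifs with hpn
      · rw [if_pos hpn] at h
        linear_combination (b 1)⁻¹ * h
      · rw [if_neg hpn] at h
        linear_combination (b 1)⁻¹ * h
    have hχc : ∀ (p : ℕ) (hp : p.Prime), χ ⟨p, hp⟩ = c p := by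
      intro p hp
      have h := hrelc' p hp 1
      rw [if_neg (by simpa using hp.ne_one), add_zero, one_mul, hc1, mul_one] at h
      exact h.symm
    have hrelc : ∀ p : ℕ, p.Prime → ∀ n : ℕ,
        c (n * p) + (if p ∣ n then ε p * c (n / p) else 0) = c p * c n := by
      intro p hp n
      rw [← hχc p hp]
      exact hrelc' p hp n
    obtain ⟨hmul, hpow⟩ := normalized_of_hecke_relations c ε hc1 hrelc
    refine ⟨hc1, hmul, ?_, ?_⟩
    · intro p r hp hpN
      have h := hpow p r hp
      simp only [ε, if_neg hpN] at h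
      exact h
    · intro p r hp hpN
      have h := hpow p r hp
      simp only [ε, if_pos hpN, zero_mul, sub_zero] at h
      exact h
  · intro p hp
    have hcb : ∀ n, qCoeff (⇑((b 1)⁻¹ • v)) n = (b 1)⁻¹ * b n := fun n => qCoeff_smul' _ _ _
    have h := hrelb p hp 1
    rw [if_neg (by simpa using hp.ne_one), add_zero, one_mul] at h
    rw [hcb, h]
    field_simp

end eigenform

end Fermat.Agent.LibS49
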