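import Mathlib

/-!
# A common eigenvector whose character has kernel inside a given prime ideal

Abstract linear algebra used for the Deligne-Serre lifting lemma (S49).
-/

set_option autoImplicit false

namespace Fermat.Agent.LibS49

open Module

variable {K : Type*} [Field K] [IsAlgClosed K]
variable {V : Type*} [AddCommGroup V] [Module K V] [FiniteDimensional K V]
variable {R : Type*} [CommRing R]

/-- Inductive core: on a nonzero stable subspace `W` such that every ring element killing `W`
lies in the prime ideal `I`, there is a common eigenvector in `W` whose eigencharacter vanishes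
only on `I`. -/
theorem exists_eigenvector_aux (φ : R →+* Module.End K V) (I : Ideal R) [hI : I.IsPrime] :
    ∀ (n : ℕ) (W : Submodule K V), Module.finrank K W = n → W ≠ ⊥ →
      (∀ t : R, ∀ w ∈ W, φ t w ∈ W) →
      (∀ t : R, (∀ w ∈ W, φ t w = 0) → t ∈ I) →
      ∃ v ∈ W, v ≠ 0 ∧ ∃ χ : R → K, (∀ t, φ t v = χ t • v) ∧ ∀ t, χ t = 0 → t ∈ I := by
  intro n
  induction n using Nat.strong_induction_on with
  | _ n ih =>
  intro W hn hW hstab hP
  have hcomm : ∀ s t : R, ∀ x : V, φ s (φ t x) = φ t (φ s x) := by
    intro s t x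
    have h1 : φ s (φ t x) = (φ s * φ t) x := rfl
    have h2 : φ t (φ s x) = (φ t * φ s) x := rfl
    rw [h1, h2, ← map_mul, ← map_mul, mul_comm]
  by_cases hB : ∃ s : R, s ∉ I ∧ ∃ w ∈ W, w ≠ 0 ∧ φ s w = 0
  · -- Case B: some `s ∉ I` is not injective on `W`; pass to the image `φ s '' W`.
    obtain ⟨s, hsI, w0, hw0W, hw0, hsw0⟩ := hB
    set W' : Submodule K V := W.map (φ s) with hW'
    have hW'le : W' ≤ W := by
      rintro x ⟨w, hw, rfl⟩
      exact hstab s w hw
    have hW'ne : W' ≠ ⊥ := by
      intro h0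
      apply hsI
      apply hP
      intro w hw
      have : φ s w ∈ W' := ⟨w, hw, rfl⟩
      rw [h0] at this
      simpa using this
    have hlt : Module.finrank K W' < Module.finrank K W := by
      apply Submodule.finrank_lt_finrank_of_lt
      refine lt_of_le_of_ne hW'le ?_
      intro heq
      -- the restriction of `φ s` to `W` is surjective onto `W`, hence injective
      let g : W →ₗ[K] W := (φ s).restrict (fun w hw => hstab s w hw)
      have hsurj : Function.Surjective g := by
        rintro ⟨y, hy⟩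
        have hy' : y ∈ W' := by rw [heq]; exact hy
        obtain ⟨w, hw, rfl⟩ := hy'
        exact ⟨⟨w, hw⟩, rfl⟩
      have hinj : Function.Injective g := LinearMap.injective_iff_surjective.mpr hsurj
      have : (⟨w0, hw0W⟩ : W) = 0 := by
        apply hinj
        apply Subtype.ext
        simpa [g] using hsw0
      exact hw0 (congrArg Subtype.val this)
    have hstab' : ∀ t : R, ∀ w ∈ W', φ t w ∈ W' := by
      rintro t x ⟨w, hw, rfl⟩
      exact ⟨φ t w, hstab t w hw, hcomm s t w⟩
    have hP' : ∀ t : R, (∀ w ∈ W', φ t w = 0) → t ∈ I := by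
      intro t ht
      have hts : t * s ∈ I := by
        apply hP
        intro w hw
        have : φ (t * s) w = φ t (φ s w) := by rw [map_mul]; rfl
        rw [this]
        exact ht _ ⟨w, hw, rfl⟩
      exact (hI.mem_or_mem hts).resolve_right hsI
    obtain ⟨v, hvW', hv, χ, hχ, hχI⟩ := ih _ (hn ▸ hlt) W' rfl hW'ne hstab' hP'
    exact ⟨v, hW'le hvW', hv, χ, hχ, hχI⟩
  · -- Case A: every `s ∉ I` is injective on `W`.
    have hA : ∀ s : R, ∀ w ∈ W, w ≠ 0 → φ s w = 0 → s ∈ I := by
      intro s w hw hw0 hsw
      by_contra hsI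
      exact hB ⟨s, hsI, w, hw, hw0, hsw⟩
    by_cases hsc : ∀ t : R, ∃ c : K, ∀ w ∈ W, φ t w = c • w
    · -- all operators are scalars on `W`
      obtain ⟨v, hvW, hv⟩ := (Submodule.ne_bot_iff W).mp hW
      choose χ hχ using hsc
      refine ⟨v, hvW, hv, χ, fun t => hχ t v hvW, ?_⟩
      intro t ht
      apply hA t v hvW hv
      rw [hχ t v hvW, ht, zero_smul]
    · -- some operator `t0` is not a scalar on `W`; pass to an eigenspace of `t0` inside `W`.
      push Not at hsc
      obtain ⟨t0, ht0⟩ := hsc
      let g : W →ₗ[K] W := (φ t0).restrict (fun w hw => hstab t0 w hw)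
      have : Nontrivial W := (Submodule.nontrivial_iff_ne_bot).mpr hW
      obtain ⟨μ, hμ⟩ := Module.End.exists_eigenvalue g
      obtain ⟨w1, hw1⟩ := hμ.exists_hasEigenvector
      have hw1ne : (w1 : V) ≠ 0 := fun h => hw1.2 (Subtype.ext h)
      have hw1eq : φ t0 (w1 : V) = μ • (w1 : V) := by
        have := hw1.apply_eq_smul
        exact congrArg Subtype.val this
      set W' : Submodule K V := W ⊓ LinearMap.ker (φ t0 - μ • (1 : Module.End K V)) with hW'
      have hW'le : W' ≤ W := inf_le_left
      have hmemW' : ∀ x, x ∈ W' ↔ x ∈ W ∧ φ t0 x = μ • x := by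
        intro x
        simp only [hW', Submodule.mem_inf, LinearMap.mem_ker, LinearMap.sub_apply,
          LinearMap.smul_apply, Module.End.one_apply, sub_eq_zero]
      have hW'ne : W' ≠ ⊥ := by
        intro h0
        have : (w1 : V) ∈ W' := (hmemW' _).mpr ⟨w1.2, hw1eq⟩
        rw [h0] at this
        exact hw1ne (by simpa using this)
      obtain ⟨w2, hw2W, hw2⟩ := ht0 μ
      have hlt : Module.finrank K W' < Module.finrank K W := by
        apply Submodule.finrank_lt_finrank_of_lt
        refine lt_of_le_of_ne hW'le ?_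
        intro heq
        have : w2 ∈ W' := by rw [heq]; exact hw2W
        exact hw2 ((hmemW' _).mp this).2
      have hstab' : ∀ t : R, ∀ w ∈ W', φ t w ∈ W' := by
        intro t x hx
        obtain ⟨hxW, hxe⟩ := (hmemW' x).mp hx
        refine (hmemW' _).mpr ⟨hstab t x hxW, ?_⟩
        rw [hcomm t0 t x, hxe, map_smul]
      have hP' : ∀ t : R, (∀ w ∈ W', φ t w = 0) → t ∈ I := by
        intro t ht
        exact hA t w1 w1.2 hw1ne (ht _ ((hmemW' _).mpr ⟨w1.2, hw1eq⟩))
      obtain ⟨v, hvW', hv, χ, hχ, hχI⟩ := ih _ (hn ▸ hlt) W' rfl hW'ne hstab' hP'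
      exact ⟨v, hW'le hvW', hv, χ, hχ, hχI⟩

/-- A commutative ring acting on a nonzero finite-dimensional space over an algebraically closed
field, with kernel of the action inside a prime ideal `I`, has a common eigenvector whose
eigencharacter vanishes only on `I`. -/
theorem exists_eigenvector_of_ker_le [Nontrivial V] (φ : R →+* Module.End K V) (I : Ideal R)
    [I.IsPrime] (hker : ∀ t : R, φ t = 0 → t ∈ I) :
    ∃ v : V, v ≠ 0 ∧ ∃ χ : R → K, (∀ t, φ t v = χ t • v) ∧ ∀ t, χ t = 0 → t ∈ I := by
  obtain ⟨v, -, hv, χ, hχ, hχI⟩ :=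
    exists_eigenvector_aux φ I _ (⊤ : Submodule K V) rfl top_ne_bot
      (fun _ _ _ => Submodule.mem_top)
      (fun t ht => hker t (LinearMap.ext fun w => by simpa using ht w Submodule.mem_top))
  exact ⟨v, hv, χ, hχ, hχI⟩

end Fermat.Agent.LibS49
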