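import Mathlib
import Fermat.Agent.Lib.S49.Eigen

/-!
# Abstract Deligne-Serre lifting lemma (prime 3)

A commuting family of operators on a complex vector space preserving a finitely generated
`ℤ`-lattice that spans, together with a mod-3 eigenvector in the lattice, has a genuine common
eigenvector whose eigenvalues are algebraic integers congruent to the mod-3 eigenvalues modulo a
maximal ideal over 3.
-/

set_option autoImplicit false

namespace Fermat.Agent.LibS49

open Module

variable {V : Type*} [AddCommGroup V] [Module ℂ V]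

theorem finiteDimensional_of_fg_span (L : Submodule ℤ V) (hLfg : L.FG)
    (hLspan : Submodule.span ℂ (L : Set V) = ⊤) : FiniteDimensional ℂ V := by
  obtain ⟨S, hS, hSL⟩ := Submodule.fg_def.mp hLfg
  have hspan : Submodule.span ℂ S = ⊤ := by
    rw [eq_top_iff, ← hLspan, Submodule.span_le]
    intro x hx
    rw [← hSL] at hx
    exact Submodule.span_subset_span ℤ ℂ S hx
  exact ⟨⟨hS.toFinset, by simpa using hspan⟩⟩

open scoped IsMulCommutative in
theorem exists_eigen_lift {ι : Type*}
    (T : ι → Module.End ℂ V) (hT : ∀ i j, Commute (T i) (T j))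
    (L : Submodule ℤ V) (hLfg : L.FG) (hLspan : Submodule.span ℂ (L : Set V) = ⊤)
    (hLstab : ∀ i, ∀ x ∈ L, T i x ∈ L)
    (f0 : V) (hf0 : f0 ∈ L) (hf0' : ∀ g ∈ L, f0 ≠ (3 : ℤ) • g)
    (a : ι → ℤ) (ha : ∀ i, ∃ g ∈ L, T i f0 - (a i) • f0 = (3 : ℤ) • g) :
    ∃ (v : V) (χ : ι → ℂ), v ≠ 0 ∧ (∀ i, T i v = χ i • v) ∧
      ∃ 𝔪' : Ideal (integralClosure ℤ ℂ), 𝔪'.IsMaximal ∧
        ((3 : ℕ) : integralClosure ℤ ℂ) ∈ 𝔪' ∧
        ∀ i, ∃ c : integralClosure ℤ ℂ, (c : ℂ) = χ i ∧
          c - ((a i : ℤ) : integralClosure ℤ ℂ) ∈ 𝔪' := by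
  classical
  have : FiniteDimensional ℂ V := finiteDimensional_of_fg_span L hLfg hLspan
  have : Nontrivial V := ⟨⟨f0, 0, fun h => hf0' 0 L.zero_mem (by simp [h])⟩⟩
  have : Module.Finite ℤ L := Module.Finite.iff_fg.mpr hLfg
  -- the `3L` sublattice
  let L3 : Submodule ℤ V := L.map ((3 : ℤ) • (LinearMap.id : V →ₗ[ℤ] V))
  have hL3 : ∀ x, x ∈ L3 ↔ ∃ g ∈ L, x = (3 : ℤ) • g := by
    intro x
    simp only [L3, Submodule.mem_map, LinearMap.smul_apply, LinearMap.id_coe, id_eq]
    constructor
    · rintro ⟨g, hg, rfl⟩; exact ⟨g, hg, rfl⟩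
    · rintro ⟨g, hg, rfl⟩; exact ⟨g, hg, rfl⟩
  have hf0L3 : f0 ∉ L3 := by
    intro h
    obtain ⟨g, hg, hfg⟩ := (hL3 _).mp h
    exact hf0' g hg hfg
  have h3L : ∀ x ∈ L, (3 : ℤ) • x ∈ L3 := fun x hx => (hL3 _).mpr ⟨x, hx, rfl⟩
  -- the commutative algebra generated by the operators
  let A : Subalgebra ℤ (Module.End ℂ V) := Algebra.adjoin ℤ (Set.range T)
  have hAcomm : IsMulCommutative A :=
    Algebra.isMulCommutative_adjoin ℤ (by rintro _ ⟨i, rfl⟩ _ ⟨j, rfl⟩; exact hT i j)
  have hTA : ∀ i, T i ∈ A := fun i => Algebra.subset_adjoin ⟨i, rfl⟩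
  -- every element of `A` preserves `L`
  have hstabA : ∀ t ∈ A, ∀ x ∈ L, t x ∈ L := by
    intro t ht
    induction ht using Algebra.adjoin_induction with
    | mem t ht => obtain ⟨i, rfl⟩ := ht; exact hLstab i
    | algebraMap n =>
      intro x hx
      have : (algebraMap ℤ (Module.End ℂ V) n) x = n • x := by
        simp
      rw [this]; exact L.smul_mem n hx
    | add s t _ _ hs ht => intro x hx; exact L.add_mem (hs x hx) (ht x hx)
    | mul s t _ _ hs ht => intro x hx; exact hs _ (ht x hx)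
  have hstabA3 : ∀ t ∈ A, ∀ x ∈ L3, t x ∈ L3 := by
    intro t ht x hx
    obtain ⟨g, hg, rfl⟩ := (hL3 _).mp hx
    rw [map_zsmul]
    exact h3L _ (hstabA t ht g hg)
  -- integer representatives modulo the ideal
  have hrep : ∀ t ∈ A, ∃ n : ℤ, t f0 - n • f0 ∈ L3 := by
    intro t ht
    induction ht using Algebra.adjoin_induction with
    | mem t ht =>
      obtain ⟨i, rfl⟩ := ht
      obtain ⟨g, hg, hgi⟩ := ha i
      exact ⟨a i, (hL3 _).mpr ⟨g, hg, hgi⟩⟩
    | algebraMap n =>
      refine ⟨n, ?_⟩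
      have : (algebraMap ℤ (Module.End ℂ V) n) f0 = n • f0 := by
        simp
      rw [this, sub_self]; exact L3.zero_mem
    | add s t _ _ hs ht =>
      obtain ⟨m, hm⟩ := hs
      obtain ⟨n, hn⟩ := ht
      refine ⟨m + n, ?_⟩
      have : (s + t) f0 - (m + n) • f0 = (s f0 - m • f0) + (t f0 - n • f0) := by
        rw [LinearMap.add_apply, add_smul]; abel
      rw [this]; exact L3.add_mem hm hn
    | mul s t hsA _ hs ht =>
      obtain ⟨m, hm⟩ := hs
      obtain ⟨n, hn⟩ := ht
      refine ⟨m * n, ?_⟩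
      have : (s * t) f0 - (m * n) • f0 = s (t f0 - n • f0) + n • (s f0 - m • f0) := by
        rw [Module.End.mul_apply, map_sub, map_zsmul, smul_sub, smul_smul, mul_comm n m]; abel
      rw [this]
      exact L3.add_mem (hstabA3 s hsA _ hn) (L3.smul_mem n hm)
  have hint3 : ∀ n : ℤ, n • f0 ∈ L3 → (3 : ℤ) ∣ n := by
    intro n hn
    have h1 : n = 3 * (n / 3) + n % 3 := (Int.mul_ediv_add_emod n 3).symm
    have hr : (n % 3) • f0 ∈ L3 := by
      have h2 : (n % 3) • f0 = n • f0 - (3 : ℤ) • ((n / 3) • f0) := by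
        have h1' : n % 3 = n - 3 * (n / 3) := by omega
        rw [h1', sub_smul, mul_smul]
      rw [h2]
      exact L3.sub_mem hn (h3L _ (L.smul_mem _ hf0))
    have h0 : 0 ≤ n % 3 := Int.emod_nonneg n (by norm_num)
    have h3 : n % 3 < 3 := Int.emod_lt_of_pos n (by norm_num)
    have hcases : n % 3 = 0 ∨ n % 3 = 1 ∨ n % 3 = 2 := by omega
    rcases hcases with h | h | h
    · exact Int.dvd_of_emod_eq_zero h
    · rw [h, one_smul] at hr; exact absurd hr hf0L3
    · rw [h] at hr
      exfalso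
      apply hf0L3
      have : f0 = (3 : ℤ) • f0 - (2 : ℤ) • f0 := by
        rw [← sub_smul]; norm_num
      rw [this]
      exact L3.sub_mem (h3L _ hf0) hr
  -- the ideal of operators killing `f0` modulo `3L`
  let I : Ideal A :=
    { carrier := {t | (t : Module.End ℂ V) f0 ∈ L3}
      add_mem' := by
        intro s t hs ht
        show ((s + t : A) : Module.End ℂ V) f0 ∈ L3
        rw [Subalgebra.coe_add, LinearMap.add_apply]
        exact L3.add_mem hs ht
      zero_mem' := by
        show ((0 : A) : Module.End ℂ V) f0 ∈ L3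
        rw [Subalgebra.coe_zero, LinearMap.zero_apply]
        exact L3.zero_mem
      smul_mem' := by
        intro s t ht
        show ((s * t : A) : Module.End ℂ V) f0 ∈ L3
        rw [Subalgebra.coe_mul, Module.End.mul_apply]
        exact hstabA3 s s.2 _ ht }
  have hImem : ∀ t : A, t ∈ I ↔ (t : Module.End ℂ V) f0 ∈ L3 := fun t => Iff.rfl
  have hIprime : I.IsPrime := by
    refine ⟨?_, ?_⟩
    · intro htop
      have h1 : (1 : A) ∈ I := by rw [htop]; exact Submodule.mem_top
      rw [hImem, Subalgebra.coe_one, Module.End.one_apply] at h1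
      exact hf0L3 h1
    · intro s t hst
      rw [hImem, Subalgebra.coe_mul] at hst
      obtain ⟨m, hm⟩ := hrep s s.2
      obtain ⟨n, hn⟩ := hrep t t.2
      have hmn : (m * n) • f0 ∈ L3 := by
        have h1 : ((s : Module.End ℂ V) * t) f0 - (m * n) • f0 ∈ L3 := by
          have : ((s : Module.End ℂ V) * t) f0 - (m * n) • f0 =
              (s : Module.End ℂ V) ((t : Module.End ℂ V) f0 - n • f0) +
                n • ((s : Module.End ℂ V) f0 - m • f0) := by
            rw [Module.End.mul_apply, map_sub, map_zsmul, smul_sub, smul_smul, mul_comm n m]; abel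
          rw [this]
          exact L3.add_mem (hstabA3 s s.2 _ hn) (L3.smul_mem n hm)
        have h2 := L3.sub_mem hst h1
        simpa using h2
      rcases Int.prime_three.dvd_or_dvd (hint3 _ hmn) with h | h
      · left
        rw [hImem]
        obtain ⟨q, rfl⟩ := h
        have : (s : Module.End ℂ V) f0 =
            ((s : Module.End ℂ V) f0 - (3 * q) • f0) + (3 : ℤ) • (q • f0) := by
          rw [mul_smul]; abel
        rw [this]
        exact L3.add_mem hm (h3L _ (L.smul_mem _ hf0))
      · right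
        rw [hImem]
        obtain ⟨q, rfl⟩ := h
        have : (t : Module.End ℂ V) f0 =
            ((t : Module.End ℂ V) f0 - (3 * q) • f0) + (3 : ℤ) • (q • f0) := by
          rw [mul_smul]; abel
        rw [this]
        exact L3.add_mem hn (h3L _ (L.smul_mem _ hf0))
  -- common eigenvector
  let φ : A →+* Module.End ℂ V := A.val.toRingHom
  have hφ : ∀ t : A, φ t = (t : Module.End ℂ V) := fun _ => rfl
  have hker : ∀ t : A, φ t = 0 → t ∈ I := by
    intro t ht
    rw [hImem, ← hφ, ht, LinearMap.zero_apply]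
    exact L3.zero_mem
  obtain ⟨v, hv, χ, hχ, hχI⟩ := exists_eigenvector_of_ker_le φ I hker
  have hinj : Function.Injective fun c : ℂ => c • v := smul_left_injective ℂ hv
  -- the eigencharacter is a ring homomorphism
  let χr : A →+* ℂ :=
    { toFun := χ
      map_one' := by
        apply hinj
        show χ 1 • v = (1 : ℂ) • v
        rw [← hχ, hφ, Subalgebra.coe_one, Module.End.one_apply, one_smul]
      map_mul' := by
        intro s t
        apply hinj
        show χ (s * t) • v = (χ s * χ t) • v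
        rw [← hχ, hφ, Subalgebra.coe_mul, Module.End.mul_apply, ← hφ t, hχ t, map_smul, ← hφ s,
          hχ s, smul_smul, mul_comm]
      map_zero' := by
        apply hinj
        show χ 0 • v = (0 : ℂ) • v
        rw [← hχ, hφ, Subalgebra.coe_zero, LinearMap.zero_apply, zero_smul]
      map_add' := by
        intro s t
        apply hinj
        show χ (s + t) • v = (χ s + χ t) • v
        rw [← hχ, hφ, Subalgebra.coe_add, LinearMap.add_apply, ← hφ s, ← hφ t, hχ s, hχ t,
          add_smul] }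
  have hχr : ∀ t : A, χr t = χ t := fun _ => rfl
  -- integrality of the elements of `A`
  let res : A →ₐ[ℤ] Module.End ℤ L :=
    { toFun := fun t => ((t : Module.End ℂ V).restrictScalars ℤ).restrict (hstabA t t.2)
      map_one' := by ext x; rfl
      map_mul' := by intro s t; ext x; rfl
      map_zero' := by ext x; rfl
      map_add' := by intro s t; ext x; rfl
      commutes' := by
        intro n
        ext x
        simp }
  have hres_inj : Function.Injective res := by
    intro s t hst
    apply Subtype.ext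
    apply LinearMap.ext_on hLspan
    intro x hx
    have := congrArg (fun u : Module.End ℤ L => ((u ⟨x, hx⟩ : L) : V)) hst
    exact this
  have hintA : ∀ t : A, IsIntegral ℤ t := fun t =>
    (isIntegral_algHom_iff res hres_inj).mp (Algebra.IsIntegral.isIntegral _)
  have hintχ : ∀ t : A, IsIntegral ℤ (χr t) := fun t =>
    (hintA t).map χr.toIntAlgHom
  let χ' : A →+* integralClosure ℤ ℂ := χr.codRestrict (integralClosure ℤ ℂ) hintχ
  have hχ' : ∀ t : A, ((χ' t : integralClosure ℤ ℂ) : ℂ) = χ t := fun _ => rfl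
  -- lying over
  let _ : Algebra A (integralClosure ℤ ℂ) := χ'.toAlgebra
  have : Algebra.IsIntegral A (integralClosure ℤ ℂ) :=
    ⟨fun z => (Algebra.IsIntegral.isIntegral (R := ℤ) z).tower_top⟩
  have hcomap : Ideal.comap (algebraMap A (integralClosure ℤ ℂ)) ⊥ ≤ I := by
    intro t ht
    rw [Ideal.mem_comap, Ideal.mem_bot] at ht
    apply hχI
    have h0 : ((χ' t : integralClosure ℤ ℂ) : ℂ) = 0 := by
      have : χ' t = 0 := ht
      rw [this]; rfl
    rw [← hχ' t, h0]
  obtain ⟨Q, -, hQprime, hQI⟩ := Ideal.exists_ideal_over_prime_of_isIntegral I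
    (⊥ : Ideal (integralClosure ℤ ℂ)) hcomap
  obtain ⟨𝔪', h𝔪'max, hQ𝔪'⟩ := Ideal.exists_le_maximal Q hQprime.ne_top
  have hI𝔪' : ∀ t : A, t ∈ I → χ' t ∈ 𝔪' := by
    intro t ht
    apply hQ𝔪'
    rw [← hQI] at ht
    exact ht
  refine ⟨v, fun i => χ ⟨T i, hTA i⟩, hv, fun i => hχ ⟨T i, hTA i⟩, 𝔪', h𝔪'max, ?_, ?_⟩
  · have h3I : ((3 : ℕ) : A) ∈ I := by
      rw [hImem]
      have : (((3 : ℕ) : A) : Module.End ℂ V) f0 = (3 : ℤ) • f0 := by
        rw [SubringClass.coe_natCast A 3, Module.End.natCast_apply, ← natCast_zsmul]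
        rfl
      rw [this]
      exact h3L _ hf0
    have := hI𝔪' _ h3I
    rwa [map_natCast] at this
  · intro i
    refine ⟨χ' ⟨T i, hTA i⟩, rfl, ?_⟩
    have hiI : (⟨T i, hTA i⟩ - ((a i : ℤ) : A) : A) ∈ I := by
      rw [hImem]
      obtain ⟨g, hg, hgi⟩ := ha i
      have : ((⟨T i, hTA i⟩ - ((a i : ℤ) : A) : A) : Module.End ℂ V) f0 = T i f0 - a i • f0 := by
        simp
      rw [this, hgi]
      exact h3L _ hg
    have := hI𝔪' _ hiI
    rwa [map_sub, map_intCast] at this

end Fermat.Agent.LibS49
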